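import Fermat.Agent.Periods.Congruence.Primitive

/-!
# Injectivity and parabolicity of periods on congruence groups
-/

set_option autoImplicit false

noncomputable section

namespace Fermat.Agent.Periods.Congruence

open UpperHalfPlane CongruenceSubgroup Filter Topology Metric Function
open Matrix.SpecialLinearGroup ModularCurve ModularCurve.Period
open scoped MatrixGroups ModularForm Manifold Real Modular ComplexConjugate

variable {M : ℕ} [NeZero M] {Γ : Subgroup SL(2, ℤ)} [Γ.FiniteIndex]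

/-- Eichler–Shimura injectivity, in the holomorphic ⊕ antiholomorphic form. -/
theorem per_add_conj_injective (hΓ : CongruenceSubgroup.Gamma M ≤ Γ) {f g : CuspForm Γ 2}
    (h : ∀ γ : Γ, per f (Additive.ofMul γ) + conj (per g (Additive.ofMul γ)) = 0) :
    f = 0 ∧ g = 0 := by
  obtain ⟨F, hF, hF', -⟩ := exists_primitive_of_le hΓ f
  obtain ⟨G, hG, hG', -⟩ := exists_primitive_of_le hΓ g
  obtain ⟨h1, h2⟩ := eq_zero_of_primitive_add_conj (Γ := Γ) hF hF' hG hG' fun γ z => by
    rw [← per_eq hF γ z, ← per_eq hG γ z]; exact h γ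
  exact ⟨DFunLike.ext _ _ (congrFun h1), DFunLike.ext _ _ (congrFun h2)⟩

theorem per_injective (hΓ : CongruenceSubgroup.Gamma M ≤ Γ) {f : CuspForm Γ 2}
    (h : per f = 0) : f = 0 :=
  (per_add_conj_injective hΓ (f := f) (g := 0) fun γ => by simp [h, per_zero hΓ]).1

theorem per_isParabolicHom (hΓ : CongruenceSubgroup.Gamma M ≤ Γ) (f : CuspForm Γ 2) :
    IsParabolicHom Γ (per f) := fun γ hγ => by
  obtain ⟨F, hF, hF', -⟩ := exists_primitive_of_le hΓ f
  exact hF'.eq_zero_of_trace_sq_eq (fun z => (per_eq hF γ z).symm) hγ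

/-- Elements with `trace² < 4` have order dividing `12`. -/
theorem pow_twelve_eq_one {γ : SL(2, ℤ)}
    (h : (γ : Matrix (Fin 2) (Fin 2) ℤ).trace ^ 2 < 4) : γ ^ 12 = 1 := by
  set A := (γ : Matrix (Fin 2) (Fin 2) ℤ)
  have hdet : A.det = 1 := γ.det_coe
  have h2 : A * A = A.trace • A - 1 := by
    rw [Matrix.det_fin_two] at hdet
    ext i j
    fin_cases i <;> fin_cases j <;>
      simp [Matrix.mul_apply, Fin.sum_univ_two, Matrix.trace_fin_two, -zsmul_eq_mul] <;> linarith
  have hb1 : -1 ≤ A.trace := by nlinarith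
  have hb2 : A.trace ≤ 1 := by nlinarith
  refine Subtype.ext ?_
  show A ^ 12 = 1
  rcases (show A.trace = -1 ∨ A.trace = 0 ∨ A.trace = 1 by omega) with ht | ht | ht <;> rw [ht] at h2
  · have h3 : A ^ 3 = 1 := by
      rw [pow_succ, pow_two, h2, sub_mul, smul_mul_assoc, h2, one_mul]
      module
    rw [show 12 = 3 * 4 from rfl, pow_mul, h3, one_pow]
  · have h4 : A ^ 4 = 1 := by
      rw [show 4 = 2 * 2 from rfl, pow_mul, pow_two A, h2, zero_smul, zero_sub, neg_one_sq]
    rw [show 12 = 4 * 3 from rfl, pow_mul, h4, one_pow]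
  · have h6 : A ^ 3 = -1 := by
      rw [pow_succ, pow_two, h2, one_smul, sub_mul, one_mul, h2, one_smul]
      abel
    rw [show 12 = 3 * 4 from rfl, pow_mul, h6, show (4 : ℕ) = 2 * 2 from rfl, pow_mul, neg_one_sq,
      one_pow]

/-- Periods vanish at elliptic and parabolic elements. -/
theorem per_eq_zero_of_trace_sq_le (hΓ : CongruenceSubgroup.Gamma M ≤ Γ) (f : CuspForm Γ 2) (γ : Γ)
    (h : ((γ : SL(2, ℤ)) : Matrix (Fin 2) (Fin 2) ℤ).trace ^ 2 ≤ 4) :
    per f (Additive.ofMul γ) = 0 := by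
  rcases h.lt_or_eq with h | h
  · have h1 : γ ^ 12 = 1 := Subtype.ext (pow_twelve_eq_one h)
    have h2 := congrArg (fun x => per f (Additive.ofMul x)) h1
    simp only [ofMul_pow, map_nsmul, ofMul_one, map_zero, nsmul_eq_mul] at h2
    exact (mul_eq_zero.mp h2).resolve_left (by norm_num)
  · exact per_isParabolicHom hΓ f γ h

end Fermat.Agent.Periods.Congruence
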