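import Fermat.Agent.Periods.Injective

/-!
# Periods of weight two cusp forms on a congruence group

`Γ` is a finite index subgroup of `SL(2, ℤ)` containing `Γ(M)`.
-/

set_option autoImplicit false

noncomputable section

namespace Fermat.Agent.Periods.Congruence

open UpperHalfPlane CongruenceSubgroup Filter Topology Metric Function
open Matrix.SpecialLinearGroup ModularCurve ModularCurve.Period
open scoped MatrixGroups ModularForm Manifold Real

variable {M : ℕ} [NeZero M] {Γ : Subgroup SL(2, ℤ)} [Γ.FiniteIndex]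

open scoped Classical in
/-- The periods of a weight two cusp form. -/
def per (f : CuspForm Γ 2) : Additive Γ →+ ℂ :=
  if h : ∃ F : ℍ → ℂ, IsPrimitive ⇑f F then
    h.choose_spec.isEquivariantPrimitive.periodHom
  else 0

omit [NeZero M] [Γ.FiniteIndex] in
/-- The periods may be computed with any primitive and any base point. -/
theorem per_eq {f : CuspForm Γ 2} {F : ℍ → ℂ} (hF : IsPrimitive ⇑f F) (γ : Γ) (z : ℍ) :
    per f (Additive.ofMul γ) = F ((γ : SL(2, ℤ)) • z) - F z := by
  have h : ∃ F : ℍ → ℂ, IsPrimitive ⇑f F := ⟨F, hF⟩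
  rw [per, dif_pos h, IsEquivariantPrimitive.periodHom_apply,
    ← h.choose_spec.isEquivariantPrimitive.sub_eq_period γ z]
  have := IsPrimitive.sub_eq h.choose_spec hF ((γ : SL(2, ℤ)) • z) z
  linear_combination this

/-- The period map, linearly. -/
def perLin (hΓ : CongruenceSubgroup.Gamma M ≤ Γ) :
    CuspForm Γ 2 →ₗ[ℂ] (Additive Γ →+ ℂ) where
  toFun f := per f
  map_add' f g := by
    refine AddMonoidHom.ext fun γ => ?_
    obtain ⟨F, hF, -⟩ := exists_primitive_of_le hΓ f
    obtain ⟨G, hG, -⟩ := exists_primitive_of_le hΓ g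
    have hFG : IsPrimitive ⇑(f + g) (F + G) := hF.add hG
    rw [AddMonoidHom.add_apply, ← ofMul_toMul γ, per_eq hF _ I, per_eq hG _ I, per_eq hFG _ I]
    simp only [Pi.add_apply]; ring
  map_smul' c f := by
    refine AddMonoidHom.ext fun γ => ?_
    obtain ⟨F, hF, -⟩ := exists_primitive_of_le hΓ f
    have hcF : IsPrimitive ⇑(c • f) (c • F) := hF.const_smul c
    rw [RingHom.id_apply, AddMonoidHom.smul_apply, ← ofMul_toMul γ, per_eq hF _ I, per_eq hcF _ I]
    simp only [Pi.smul_apply, smul_eq_mul]; ring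

@[simp] theorem perLin_apply (hΓ : CongruenceSubgroup.Gamma M ≤ Γ) (f : CuspForm Γ 2) :
    perLin hΓ f = per f := rfl

theorem per_zero (hΓ : CongruenceSubgroup.Gamma M ≤ Γ) : per (0 : CuspForm Γ 2) = 0 :=
  map_zero (perLin hΓ)

end Fermat.Agent.Periods.Congruence
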